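import Mathlib
import Fermat.Agent.S52.H61.RedHom

/-!
# Rigidity of torsion relations across two fibres (abstract core of Theorem A')

`W` is a Weierstrass curve over a field `L` with good reduction at two valuation subrings
`A₀`, `A₁` of `L`.  If three `p`-torsion points `P₀, P₁, P₂` of `W(L)` (`p` an odd prime which is
a unit at both places, `P₁ ≠ 0`) satisfy, after reduction at the place `j`, the relation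
`P₂ - a_j • P₁ + c • P₀ = 0` (`j = 0, 1`), then `p ∣ a₁ - a₀`.

There is neither a Frobenius nor a function field in the statement: it is applied to the three
sections `P^(i)_t` of the Klein pencil over `L = k(t)` and to the two places `t = τ₀`, `t = τ₁`.
-/

set_option autoImplicit false

namespace Fermat.Agent.S52.H69

open WeierstrassCurve WeierstrassCurve.Affine
open Fermat.Agent.S05.H60 (IntegralCoeffs E1)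

variable {L : Type*} [Field L] [DecidableEq L]

/-- A point killed by an odd prime `p` (a unit at the place) whose reduction is `0` is `0`. -/
theorem eq_zero_of_red_eq_zero {G : Type*} [AddGroup G] (A : ValuationSubring L) (W : Affine L)
    (hW : IntegralCoeffs A W) (r : W.Point →+ G) (hr : ∀ P, r P = 0 ↔ P ∈ E1 hW)
    {p : ℕ} (hp : p.Prime) (hp2 : p ≠ 2) (hpA : (p : L) ∉ A.nonunits) {P : W.Point}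
    (hpP : p • P = 0) (h0 : r P = 0) : P = 0 :=
  Fermat.Agent.S05.H60.eq_zero_of_mem_E1_of_prime_nsmul_eq_zero hW hp hp2 hpA ((hr P).1 h0) hpP

/-- **Rigidity, homomorphism form.**  `r₀`, `r₁` are homomorphisms out of `W(L)` whose kernels are
the kernels of reduction at two places; a relation `P₂ - a_j • P₁ + c • P₀ = 0` between the
images of three `p`-torsion points at the place `j` (`j = 0, 1`) forces `p ∣ a₁ - a₀`. -/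
theorem dvd_sub_of_torsion_relations {G₀ G₁ : Type*} [AddCommGroup G₀] [AddCommGroup G₁]
    {p : ℕ} (hp : p.Prime) (hp2 : p ≠ 2) (W : Affine L)
    (A₀ A₁ : ValuationSubring L) (hW₀ : IntegralCoeffs A₀ W) (hW₁ : IntegralCoeffs A₁ W)
    (hpA₀ : (p : L) ∉ A₀.nonunits) (hpA₁ : (p : L) ∉ A₁.nonunits)
    (r₀ : W.Point →+ G₀) (hr₀ : ∀ P, r₀ P = 0 ↔ P ∈ E1 hW₀)
    (r₁ : W.Point →+ G₁) (hr₁ : ∀ P, r₁ P = 0 ↔ P ∈ E1 hW₁)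
    (P₀ P₁ P₂ : W.Point) (hP₁ : P₁ ≠ 0)
    (h0 : p • P₀ = 0) (h1 : p • P₁ = 0) (h2 : p • P₂ = 0) (a₀ a₁ c : ℤ)
    (rel₀ : r₀ P₂ - a₀ • r₀ P₁ + c • r₀ P₀ = 0)
    (rel₁ : r₁ P₂ - a₁ • r₁ P₁ + c • r₁ P₀ = 0) :
    (p : ℤ) ∣ a₁ - a₀ := by
  have key : ∀ a : ℤ, p • (P₂ - a • P₁ + c • P₀) = 0 := by
    intro a
    rw [smul_add, smul_sub, smul_comm p a P₁, smul_comm p c P₀, h0, h1, h2]
    simp
  have hR₀ : P₂ - a₀ • P₁ + c • P₀ = 0 := by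
    refine eq_zero_of_red_eq_zero A₀ W hW₀ r₀ hr₀ hp hp2 hpA₀ (key a₀) ?_
    rw [map_add, map_sub, map_zsmul, map_zsmul]
    exact rel₀
  have hR₁ : P₂ - a₁ • P₁ + c • P₀ = 0 := by
    refine eq_zero_of_red_eq_zero A₁ W hW₁ r₁ hr₁ hp hp2 hpA₁ (key a₁) ?_
    rw [map_add, map_sub, map_zsmul, map_zsmul]
    exact rel₁
  have hdiff : (a₁ - a₀) • P₁ = 0 := by
    have : (a₁ - a₀) • P₁ = (P₂ - a₀ • P₁ + c • P₀) - (P₂ - a₁ • P₁ + c • P₀) := by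
      rw [sub_smul]; abel
    rw [this, hR₀, hR₁, sub_zero]
  have : Fact p.Prime := ⟨hp⟩
  have hord : addOrderOf P₁ = p := addOrderOf_eq_prime h1 hP₁
  have := (addOrderOf_dvd_iff_zsmul_eq_zero (x := P₁) (i := a₁ - a₀)).2 hdiff
  rwa [hord] at this

variable {k₀ k₁ : Type*} [Field k₀] [Field k₁] [DecidableEq k₀] [DecidableEq k₁]

/-- **Rigidity, section form.**  `W` over `L` has good reduction `Wk₀`, `Wk₁` at two places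
`(A₀, π₀)`, `(A₁, π₁)`; three affine `p`-torsion points `(x i, y i)` of `W(L)` with coordinates
integral at both places; if their reductions satisfy
`(x̄₂, ȳ₂) - a_j • (x̄₁, ȳ₁) + c • (x̄₀, ȳ₀) = 0` at the place `j`, then `p ∣ a₁ - a₀`. -/
theorem dvd_sub_of_sections {p : ℕ} (hp : p.Prime) (hp2 : p ≠ 2) (W : Affine L)
    (A₀ A₁ : ValuationSubring L) (π₀ : A₀ →+* k₀) (π₁ : A₁ →+* k₁)
    (hker₀ : ∀ a : A₀, π₀ a = 0 ↔ (a : L) ∈ A₀.nonunits)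
    (hker₁ : ∀ a : A₁, π₁ a = 0 ↔ (a : L) ∈ A₁.nonunits)
    (hW₀ : IntegralCoeffs A₀ W) (hW₁ : IntegralCoeffs A₁ W)
    (hpA₀ : (p : L) ∉ A₀.nonunits) (hpA₁ : (p : L) ∉ A₁.nonunits)
    (Wk₀ : Affine k₀) (Wk₁ : Affine k₁)
    (e₀ : π₀ ⟨W.a₁, hW₀.a₁⟩ = Wk₀.a₁ ∧ π₀ ⟨W.a₂, hW₀.a₂⟩ = Wk₀.a₂ ∧ π₀ ⟨W.a₃, hW₀.a₃⟩ = Wk₀.a₃ ∧
      π₀ ⟨W.a₄, hW₀.a₄⟩ = Wk₀.a₄ ∧ π₀ ⟨W.a₆, hW₀.a₆⟩ = Wk₀.a₆)
    (e₁ : π₁ ⟨W.a₁, hW₁.a₁⟩ = Wk₁.a₁ ∧ π₁ ⟨W.a₂, hW₁.a₂⟩ = Wk₁.a₂ ∧ π₁ ⟨W.a₃, hW₁.a₃⟩ = Wk₁.a₃ ∧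
      π₁ ⟨W.a₄, hW₁.a₄⟩ = Wk₁.a₄ ∧ π₁ ⟨W.a₆, hW₁.a₆⟩ = Wk₁.a₆)
    (hΔ₀ : Wk₀.Δ ≠ 0) (hΔ₁ : Wk₁.Δ ≠ 0)
    (x y : Fin 3 → L) (hxy : ∀ i, W.Nonsingular (x i) (y i))
    (htor : ∀ i, p • Point.some (x i) (y i) (hxy i) = 0)
    (hx₀ : ∀ i, x i ∈ A₀) (hy₀ : ∀ i, y i ∈ A₀) (hx₁ : ∀ i, x i ∈ A₁) (hy₁ : ∀ i, y i ∈ A₁)
    (hk₀ : ∀ i, Wk₀.Nonsingular (π₀ ⟨x i, hx₀ i⟩) (π₀ ⟨y i, hy₀ i⟩))
    (hk₁ : ∀ i, Wk₁.Nonsingular (π₁ ⟨x i, hx₁ i⟩) (π₁ ⟨y i, hy₁ i⟩))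
    (a₀ a₁ c : ℤ)
    (rel₀ : Point.some _ _ (hk₀ 2) - a₀ • Point.some _ _ (hk₀ 1) + c • Point.some _ _ (hk₀ 0) = 0)
    (rel₁ : Point.some _ _ (hk₁ 2) - a₁ • Point.some _ _ (hk₁ 1) + c • Point.some _ _ (hk₁ 0) = 0) :
    (p : ℤ) ∣ a₁ - a₀ := by
  obtain ⟨r₀, hr₀, hs₀⟩ := Fermat.Agent.S52.H61.exists_red_hom A₀ π₀ hker₀ W hW₀ Wk₀
    e₀.1 e₀.2.1 e₀.2.2.1 e₀.2.2.2.1 e₀.2.2.2.2 hΔ₀
  obtain ⟨r₁, hr₁, hs₁⟩ := Fermat.Agent.S52.H61.exists_red_hom A₁ π₁ hker₁ W hW₁ Wk₁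
    e₁.1 e₁.2.1 e₁.2.2.1 e₁.2.2.2.1 e₁.2.2.2.2 hΔ₁
  refine dvd_sub_of_torsion_relations hp hp2 W A₀ A₁ hW₀ hW₁ hpA₀ hpA₁ r₀ hr₀ r₁ hr₁
    (Point.some _ _ (hxy 0)) (Point.some _ _ (hxy 1)) (Point.some _ _ (hxy 2))
    (by simp) (htor 0) (htor 1) (htor 2) a₀ a₁ c ?_ ?_
  · rw [hs₀ _ _ (hxy 2) (hx₀ 2) (hy₀ 2) (hk₀ 2), hs₀ _ _ (hxy 1) (hx₀ 1) (hy₀ 1) (hk₀ 1),
      hs₀ _ _ (hxy 0) (hx₀ 0) (hy₀ 0) (hk₀ 0)]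
    exact rel₀
  · rw [hs₁ _ _ (hxy 2) (hx₁ 2) (hy₁ 2) (hk₁ 2), hs₁ _ _ (hxy 1) (hx₁ 1) (hy₁ 1) (hk₁ 1),
      hs₁ _ _ (hxy 0) (hx₁ 0) (hy₁ 0) (hk₁ 0)]
    exact rel₁

end Fermat.Agent.S52.H69
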