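import Mathlib
import Fermat.Agent.S52.H69.Rigidity
import Fermat.Agent.S52.H16.RegularAt
import Fermat.Agent.S52.H91.TorsPoint
import Fermat.Agent.S52.H93.KleinAway
import Fermat.Agent.S52.H94.CHModel

/-!
# Theorem A' for the Klein pencil (S52, package E5)

Two members of the pencil `u = n • v₀ + m • w(v₀)` of Klein's icosahedral family over `𝔽_ℓ`
have the same number of points modulo `5` (`klein_pencil_congr`).

The proof uses three explicit `5`-torsion sections over `k(t)` (the explicit point of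
`H91.klein_torsion_point` for the constants and the base point twisted by `Frob^i`, `i = 0,1,2`),
reduction at the two places `t = 0`, `t = 1` (`H16.regularAt`, `H61.exists_red_hom`), the
Cayley–Hamilton relation on the two fibres and the abstract rigidity `dvd_sub_of_torsion_relations`.
The explicit family identities enter only through `FamilyHyp`.
-/

set_option autoImplicit false

namespace Fermat.Agent.S52.H69

open WeierstrassCurve WeierstrassCurve.Affine Polynomial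
open Fermat.Agent.S05.H60 (IntegralCoeffs E1)
open Fermat.Agent.S52

section Pencil

variable {R : Type*} [CommRing R]

/-- First coordinate of the pencil vector `n • v + m • w(v)`. -/
def pvx (n m x y : R) : R := n * x + m * H93.kwx x y

/-- Second coordinate of the pencil vector `n • v + m • w(v)`. -/
def pvy (n m x y : R) : R := n * y + m * H93.kwy x y

variable {S : Type*} [CommRing S] (φ : R →+* S)

theorem map_kwx (x y : R) : φ (H93.kwx x y) = H93.kwx (φ x) (φ y) := by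
  simp [H93.kwx, map_ofNat]

theorem map_kwy (x y : R) : φ (H93.kwy x y) = H93.kwy (φ x) (φ y) := by
  simp [H93.kwy, map_ofNat]

theorem map_pvx (n m x y : R) : φ (pvx n m x y) = pvx (φ n) (φ m) (φ x) (φ y) := by
  simp [pvx, map_kwx]

theorem map_pvy (n m x y : R) : φ (pvy n m x y) = pvy (φ n) (φ m) (φ x) (φ y) := by
  simp [pvy, map_kwy]

/-- **The family hypothesis** (a consequence of the explicit family identities E0): the Klein
invariants of `n • v + m • w(v)` depend only on `n`, `m` and the Klein invariants of `v`. -/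
def FamilyHyp (R : Type*) [CommRing R] : Prop :=
  ∀ x y x' y' n m : R, H91.kH x y = H91.kH x' y' → H91.kT x y = H91.kT x' y' →
    H91.kH (pvx n m x y) (pvy n m x y) = H91.kH (pvx n m x' y') (pvy n m x' y') ∧
    H91.kT (pvx n m x y) (pvy n m x y) = H91.kT (pvx n m x' y') (pvy n m x' y')

end Pencil

noncomputable section Sections

variable {k : Type*} [Field k]

/-- The parameter polynomial `a₀ + t (a₁ - a₀)`. -/
def par (a₀ a₁ : k) : k[X] := C a₀ + X * C (a₁ - a₀)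

@[simp] theorem par_eval_zero (a₀ a₁ : k) : (par a₀ a₁).eval 0 = a₀ := by simp [par]

@[simp] theorem par_eval_one (a₀ a₁ : k) : (par a₀ a₁).eval 1 = a₁ := by simp [par]

variable (n₀ m₀ n₁ m₁ : k)

/-- First coordinate of `v(t) = ν(t) • v + μ(t) • w(v)` for the base point `v = (x, y)`. -/
def secVx (x y : k) : k[X] := pvx (par n₀ n₁) (par m₀ m₁) (C x) (C y)

/-- Second coordinate of `v(t)`. -/
def secVy (x y : k) : k[X] := pvy (par n₀ n₁) (par m₀ m₁) (C x) (C y)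

/-- `x`-coordinate of the explicit torsion section, as a polynomial in `t`. -/
def secX (r x y : k) : k[X] :=
  C (5 : k)⁻¹ * H91.tX5 (C r) (secVx n₀ m₀ n₁ m₁ x y ^ 5) (secVy n₀ m₀ n₁ m₁ x y ^ 5)

/-- `y`-coordinate of the explicit torsion section, as a polynomial in `t`. -/
def secY (r ρ x y : k) : k[X] :=
  C (10 : k)⁻¹ * H91.tY10 (C r) (C ρ) (secVx n₀ m₀ n₁ m₁ x y ^ 5) (secVy n₀ m₀ n₁ m₁ x y ^ 5)

theorem map_C_inv_ofNat {T : Type*} [Field T] (θ : k[X] →+* T) (n : ℕ) [n.AtLeastTwo] :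
    θ (C (OfNat.ofNat n : k)⁻¹) = (OfNat.ofNat n : T)⁻¹ := by
  have h := map_inv₀ (θ.comp C) (OfNat.ofNat n : k)
  rw [RingHom.comp_apply, RingHom.comp_apply] at h
  rw [h, ← RingHom.comp_apply, map_ofNat]

theorem map_secX {T : Type*} [Field T] (θ : k[X] →+* T) (r x y : k) :
    θ (secX n₀ m₀ n₁ m₁ r x y) =
      H91.tX1 (θ (C r)) (θ (secVx n₀ m₀ n₁ m₁ x y)) (θ (secVy n₀ m₀ n₁ m₁ x y)) := by
  rw [secX, map_mul, map_C_inv_ofNat, H91.tX1, H91.map_tX5, map_pow, map_pow]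
  ring

theorem map_secY {T : Type*} [Field T] (θ : k[X] →+* T) (r ρ x y : k) :
    θ (secY n₀ m₀ n₁ m₁ r ρ x y) =
      H91.tY1 (θ (C r)) (θ (C ρ)) (θ (secVx n₀ m₀ n₁ m₁ x y)) (θ (secVy n₀ m₀ n₁ m₁ x y)) := by
  rw [secY, map_mul, map_C_inv_ofNat, H91.tY1, H91.map_tY10, map_pow, map_pow]
  ring

theorem map_secVx {T : Type*} [CommRing T] (θ : k[X] →+* T) (x y : k) :
    θ (secVx n₀ m₀ n₁ m₁ x y) = pvx (θ (par n₀ n₁)) (θ (par m₀ m₁)) (θ (C x)) (θ (C y)) :=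
  map_pvx θ _ _ _ _

theorem map_secVy {T : Type*} [CommRing T] (θ : k[X] →+* T) (x y : k) :
    θ (secVy n₀ m₀ n₁ m₁ x y) = pvy (θ (par n₀ n₁)) (θ (par m₀ m₁)) (θ (C x)) (θ (C y)) :=
  map_pvy θ _ _ _ _

theorem secVx_eval (τ x y : k) : (secVx n₀ m₀ n₁ m₁ x y).eval τ =
    pvx ((par n₀ n₁).eval τ) ((par m₀ m₁).eval τ) x y := by
  have := map_secVx n₀ m₀ n₁ m₁ (evalRingHom τ) x y
  simpa using this

theorem secVy_eval (τ x y : k) : (secVy n₀ m₀ n₁ m₁ x y).eval τ =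
    pvy ((par n₀ n₁).eval τ) ((par m₀ m₁).eval τ) x y := by
  have := map_secVy n₀ m₀ n₁ m₁ (evalRingHom τ) x y
  simpa using this

theorem secX_eval (τ r x y : k) : (secX n₀ m₀ n₁ m₁ r x y).eval τ =
    H91.tX1 r (pvx ((par n₀ n₁).eval τ) ((par m₀ m₁).eval τ) x y)
      (pvy ((par n₀ n₁).eval τ) ((par m₀ m₁).eval τ) x y) := by
  have := map_secX n₀ m₀ n₁ m₁ (evalRingHom τ) r x y
  simpa [secVx_eval, secVy_eval] using this

theorem secY_eval (τ r ρ x y : k) : (secY n₀ m₀ n₁ m₁ r ρ x y).eval τ =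
    H91.tY1 r ρ (pvx ((par n₀ n₁).eval τ) ((par m₀ m₁).eval τ) x y)
      (pvy ((par n₀ n₁).eval τ) ((par m₀ m₁).eval τ) x y) := by
  have := map_secY n₀ m₀ n₁ m₁ (evalRingHom τ) r ρ x y
  simpa [secVx_eval, secVy_eval] using this

/-- Twisting the constants and the base point by a ring endomorphism `ψ` that fixes the
parameters at `τ` twists the value of the section at `τ` by `ψ`. -/
theorem secX_eval_twist (ψ : k →+* k) (τ r x y : k)
    (hN : ψ ((par n₀ n₁).eval τ) = (par n₀ n₁).eval τ)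
    (hM : ψ ((par m₀ m₁).eval τ) = (par m₀ m₁).eval τ) :
    (secX n₀ m₀ n₁ m₁ (ψ r) (ψ x) (ψ y)).eval τ = ψ ((secX n₀ m₀ n₁ m₁ r x y).eval τ) := by
  rw [secX_eval, secX_eval, H91.map_tX1, map_pvx, map_pvy, hN, hM]

theorem secY_eval_twist (ψ : k →+* k) (τ r ρ x y : k)
    (hN : ψ ((par n₀ n₁).eval τ) = (par n₀ n₁).eval τ)
    (hM : ψ ((par m₀ m₁).eval τ) = (par m₀ m₁).eval τ) :
    (secY n₀ m₀ n₁ m₁ (ψ r) (ψ ρ) (ψ x) (ψ y)).eval τ =
      ψ ((secY n₀ m₀ n₁ m₁ r ρ x y).eval τ) := by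
  rw [secY_eval, secY_eval, H91.map_tY1, map_pvx, map_pvy, hN, hM]

end Sections

section Points

variable {k : Type*} [Field k]

/-- Transport of a torsion statement along equalities of the coordinates. -/
theorem exists_some_of_eq {F : Type*} [Field F] [DecidableEq F] {W : Affine F} {x y x' y' : F}
    (h : W.Nonsingular x y) (hx : x = x') (hy : y = y') (n : ℕ)
    (hn : n • Point.some x y h = 0) :
    ∃ h' : W.Nonsingular x' y', n • Point.some x' y' h' = 0 := by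
  subst hx hy
  exact ⟨h, hn⟩

variable [DecidableEq (RatFunc k)] (n₀ m₀ n₁ m₁ : k)

/-- **The torsion sections.**  Over `L = k(t)`, on the curve
`W : y² = x³ + 27 H(v(t)) x + 54 T(v(t))`, `v(t) = ν(t) • v₀ + μ(t) • w(v₀)`, the explicit point
attached to the `ψ`-twisted constants and base point is a point of `W` killed by `5`, for every
ring endomorphism `ψ` of `k` fixing the invariants of `v₀` and the parameters at `t = 0`. -/
theorem exists_section_point (h2 : (2 : k) ≠ 0) (h3 : (3 : k) ≠ 0) (h5 : (5 : k) ≠ 0)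
    (hfam : FamilyHyp (RatFunc k)) (x₀ y₀ : k)
    (hf₀ : H91.kf (pvx n₀ m₀ x₀ y₀) (pvy n₀ m₀ x₀ y₀) ≠ 0)
    (W : Affine (RatFunc k)) (ha₁ : W.a₁ = 0) (ha₂ : W.a₂ = 0) (ha₃ : W.a₃ = 0)
    (ha₄ : W.a₄ = algebraMap k[X] (RatFunc k)
      (27 * H91.kH (secVx n₀ m₀ n₁ m₁ x₀ y₀) (secVy n₀ m₀ n₁ m₁ x₀ y₀)))
    (ha₆ : W.a₆ = algebraMap k[X] (RatFunc k)
      (54 * H91.kT (secVx n₀ m₀ n₁ m₁ x₀ y₀) (secVy n₀ m₀ n₁ m₁ x₀ y₀)))
    (ψ : k →+* k) (hn₀ : ψ n₀ = n₀) (hm₀ : ψ m₀ = m₀)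
    (hH : ψ (H91.kH x₀ y₀) = H91.kH x₀ y₀) (hT : ψ (H91.kT x₀ y₀) = H91.kT x₀ y₀)
    (r ρ : k) (hr : r ^ 2 = 5) (hρ : ρ ^ 2 = -5832 * (25 + 11 * r)) :
    ∃ h : W.Nonsingular
        (algebraMap k[X] (RatFunc k) (secX n₀ m₀ n₁ m₁ (ψ r) (ψ x₀) (ψ y₀)))
        (algebraMap k[X] (RatFunc k) (secY n₀ m₀ n₁ m₁ (ψ r) (ψ ρ) (ψ x₀) (ψ y₀))),
      5 • Point.some _ _ h = 0 := by
  set ι : k[X] →+* RatFunc k := algebraMap k[X] (RatFunc k) with hι
  have hι_inj : Function.Injective ι := IsFractionRing.injective k[X] (RatFunc k)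
  have hc : ∀ (n : ℕ) [n.AtLeastTwo], (OfNat.ofNat n : k) ≠ 0 →
      (OfNat.ofNat n : RatFunc k) ≠ 0 := by
    intro n _ hn h0
    apply hn
    have h1 : (ι.comp C) (OfNat.ofNat n : k) = 0 := by rw [map_ofNat]; exact h0
    exact (map_eq_zero_iff (ι.comp C) (ι.comp C).injective).mp h1
  -- the invariants of the twisted base point agree with those of the base point
  have hHψ : H91.kH (ι (C (ψ x₀))) (ι (C (ψ y₀))) = H91.kH (ι (C x₀)) (ι (C y₀)) := by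
    have e1 : H91.kH (ι (C (ψ x₀))) (ι (C (ψ y₀))) = (ι.comp C) (ψ (H91.kH x₀ y₀)) := by
      rw [H91.map_kH ψ, H91.map_kH (ι.comp C)]; rfl
    have e2 : H91.kH (ι (C x₀)) (ι (C y₀)) = (ι.comp C) (H91.kH x₀ y₀) := by
      rw [H91.map_kH (ι.comp C)]; rfl
    rw [e1, e2, hH]
  have hTψ : H91.kT (ι (C (ψ x₀))) (ι (C (ψ y₀))) = H91.kT (ι (C x₀)) (ι (C y₀)) := by
    have e1 : H91.kT (ι (C (ψ x₀))) (ι (C (ψ y₀))) = (ι.comp C) (ψ (H91.kT x₀ y₀)) := by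
      rw [H91.map_kT ψ, H91.map_kT (ι.comp C)]; rfl
    have e2 : H91.kT (ι (C x₀)) (ι (C y₀)) = (ι.comp C) (H91.kT x₀ y₀) := by
      rw [H91.map_kT (ι.comp C)]; rfl
    rw [e1, e2, hT]
  obtain ⟨e4, e6⟩ := hfam (ι (C (ψ x₀))) (ι (C (ψ y₀))) (ι (C x₀)) (ι (C y₀))
    (ι (par n₀ n₁)) (ι (par m₀ m₁)) hHψ hTψ
  have ha₄' : W.a₄ = 27 * H91.kH (ι (secVx n₀ m₀ n₁ m₁ (ψ x₀) (ψ y₀)))
      (ι (secVy n₀ m₀ n₁ m₁ (ψ x₀) (ψ y₀))) := by
    rw [ha₄, map_mul, map_ofNat, H91.map_kH, map_secVx, map_secVy, map_secVx, map_secVy, e4]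
  have ha₆' : W.a₆ = 54 * H91.kT (ι (secVx n₀ m₀ n₁ m₁ (ψ x₀) (ψ y₀)))
      (ι (secVy n₀ m₀ n₁ m₁ (ψ x₀) (ψ y₀))) := by
    rw [ha₆, map_mul, map_ofNat, H91.map_kT, map_secVx, map_secVy, map_secVx, map_secVy, e6]
  have hf : H91.kf (ι (secVx n₀ m₀ n₁ m₁ (ψ x₀) (ψ y₀)))
      (ι (secVy n₀ m₀ n₁ m₁ (ψ x₀) (ψ y₀))) ≠ 0 := by
    rw [← H91.map_kf]
    intro h0
    have h0' : H91.kf (secVx n₀ m₀ n₁ m₁ (ψ x₀) (ψ y₀)) (secVy n₀ m₀ n₁ m₁ (ψ x₀) (ψ y₀)) = 0 :=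
      hι_inj (by rw [h0, map_zero])
    have h1 := congrArg (evalRingHom (0 : k)) h0'
    rw [H91.map_kf, coe_evalRingHom, secVx_eval, secVy_eval, par_eval_zero, par_eval_zero,
      eval_zero] at h1
    have h2' : ψ (H91.kf (pvx n₀ m₀ x₀ y₀) (pvy n₀ m₀ x₀ y₀)) = 0 := by
      rw [H91.map_kf, map_pvx, map_pvy, hn₀, hm₀]; exact h1
    exact hf₀ ((map_eq_zero_iff ψ ψ.injective).mp h2')
  have hr' : (ι (C (ψ r))) ^ 2 = 5 := by
    rw [← map_pow, ← map_pow, ← map_pow, hr]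
    exact (map_ofNat (ι.comp (C.comp ψ)) 5)
  have hρ' : (ι (C (ψ ρ))) ^ 2 = -5832 * (25 + 11 * ι (C (ψ r))) := by
    rw [← map_pow, ← map_pow, ← map_pow, hρ]
    simp [map_ofNat]
  obtain ⟨h, h5P⟩ := H91.klein_torsion_point W (hc 2 h2) (hc 3 h3) (hc 5 h5) ha₁ ha₂ ha₃ _ _
    ha₄' ha₆' hf (ι (C (ψ r))) (ι (C (ψ ρ))) hr' hρ'
  exact exists_some_of_eq h (map_secX n₀ m₀ n₁ m₁ ι (ψ r) (ψ x₀) (ψ y₀)).symm
    (map_secY n₀ m₀ n₁ m₁ ι (ψ r) (ψ ρ) (ψ x₀) (ψ y₀)).symm 5 h5P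

end Points

section Fibre

/-- The value of a reduction homomorphism at an integral affine point, with the reduced
coordinates given up to equality. -/
theorem red_some_of_eq {L κ : Type*} [Field L] [Field κ] [DecidableEq L] [DecidableEq κ]
    {A : ValuationSubring L} {π : A →+* κ} {W : Affine L} {Wk : Affine κ}
    (ρ : W.Point →+ Wk.Point)
    (hs : ∀ (x y : L) (hxy : W.Nonsingular x y) (hx : x ∈ A) (hy : y ∈ A)
      (hk : Wk.Nonsingular (π ⟨x, hx⟩) (π ⟨y, hy⟩)),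
      ρ (Point.some x y hxy) = Point.some (π ⟨x, hx⟩) (π ⟨y, hy⟩) hk)
    {x y : L} (hxy : W.Nonsingular x y) (hx : x ∈ A) (hy : y ∈ A) {ξ η : κ}
    (hξ : π ⟨x, hx⟩ = ξ) (hη : π ⟨y, hy⟩ = η) (hk : Wk.Nonsingular ξ η) :
    ρ (Point.some x y hxy) = Point.some ξ η hk := by
  subst hξ hη
  exact hs x y hxy hx hy hk

theorem natCast_ne_zero_of_lt (l : ℕ) (k : Type*) [Field k] [CharP k l] (hl : 7 ≤ l) (q : ℕ)
    (hq0 : q ≠ 0) (hq : q < 7) : (q : k) ≠ 0 := by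
  intro h
  rw [CharP.cast_eq_zero_iff k l] at h
  exact absurd (Nat.le_of_dvd (Nat.pos_of_ne_zero hq0) h) (by omega)

theorem E0_Δ (l : ℕ) [Fact l.Prime] (a b : ZMod l) :
    (H94.E0 l a b).Δ = -16 * (4 * a ^ 3 + 27 * b ^ 2) := by
  simp only [H94.E0, WeierstrassCurve.Δ, WeierstrassCurve.b₂, WeierstrassCurve.b₄,
    WeierstrassCurve.b₆, WeierstrassCurve.b₈]
  ring

variable (l : ℕ) [Fact l.Prime] (k : Type) [Field k] [Algebra (ZMod l) k] [CharP k l]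
  [IsAlgClosed k] [DecidableEq k] [DecidableEq (RatFunc k)]

/-- **The relation on a fibre.**  At a place `t = τ` where the parameters are `Frobenius`-fixed
and the fibre `y² = x³ + 27 A x + 54 B` is nonsingular, the three sections reduce to
`T`, `π T`, `π² T`, hence satisfy the Cayley–Hamilton relation after reduction. -/
theorem fibre_relation (hl : 7 ≤ l) (N₀ M₀ N₁ M₁ x₀ y₀ r ρ : k)
    (hr : r ^ 2 = 5) (hρ : ρ ^ 2 = -5832 * (25 + 11 * r))
    (W : Affine (RatFunc k)) (ha₁ : W.a₁ = 0) (ha₂ : W.a₂ = 0) (ha₃ : W.a₃ = 0)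
    (ha₄ : W.a₄ = algebraMap k[X] (RatFunc k)
      (27 * H91.kH (secVx N₀ M₀ N₁ M₁ x₀ y₀) (secVy N₀ M₀ N₁ M₁ x₀ y₀)))
    (ha₆ : W.a₆ = algebraMap k[X] (RatFunc k)
      (54 * H91.kT (secVx N₀ M₀ N₁ M₁ x₀ y₀) (secVy N₀ M₀ N₁ M₁ x₀ y₀)))
    (τ : k)
    (hNτ : frobenius k l ((par N₀ N₁).eval τ) = (par N₀ N₁).eval τ)
    (hMτ : frobenius k l ((par M₀ M₁).eval τ) = (par M₀ M₁).eval τ)
    (A B : ZMod l)
    (hA : H91.kH (pvx ((par N₀ N₁).eval τ) ((par M₀ M₁).eval τ) x₀ y₀)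
      (pvy ((par N₀ N₁).eval τ) ((par M₀ M₁).eval τ) x₀ y₀) = algebraMap (ZMod l) k A)
    (hB : H91.kT (pvx ((par N₀ N₁).eval τ) ((par M₀ M₁).eval τ) x₀ y₀)
      (pvy ((par N₀ N₁).eval τ) ((par M₀ M₁).eval τ) x₀ y₀) = algebraMap (ZMod l) k B)
    (hΔ : A ^ 3 + B ^ 2 ≠ 0) (hCH : H94.CHStatement l (27 * A) (54 * B))
    (h0 : W.Nonsingular (algebraMap k[X] (RatFunc k) (secX N₀ M₀ N₁ M₁ r x₀ y₀))
      (algebraMap k[X] (RatFunc k) (secY N₀ M₀ N₁ M₁ r ρ x₀ y₀)))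
    (h1 : W.Nonsingular
      (algebraMap k[X] (RatFunc k) (secX N₀ M₀ N₁ M₁ (frobenius k l r) (frobenius k l x₀)
        (frobenius k l y₀)))
      (algebraMap k[X] (RatFunc k) (secY N₀ M₀ N₁ M₁ (frobenius k l r) (frobenius k l ρ)
        (frobenius k l x₀) (frobenius k l y₀))))
    (h2 : W.Nonsingular
      (algebraMap k[X] (RatFunc k) (secX N₀ M₀ N₁ M₁ (frobenius k l (frobenius k l r))
        (frobenius k l (frobenius k l x₀)) (frobenius k l (frobenius k l y₀))))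
      (algebraMap k[X] (RatFunc k) (secY N₀ M₀ N₁ M₁ (frobenius k l (frobenius k l r))
        (frobenius k l (frobenius k l ρ)) (frobenius k l (frobenius k l x₀))
        (frobenius k l (frobenius k l y₀))))) :
    ∃ (hW : IntegralCoeffs (H16.regularAt τ) W)
      (red : W.Point →+ ((H94.E0 l (27 * A) (54 * B))⁄k).Point),
      (∀ P, red P = 0 ↔ P ∈ E1 hW) ∧
      red (Point.some _ _ h2)
        - ((l : ℤ) + 1 - (Nat.card (H94.E0 l (27 * A) (54 * B)).Point : ℤ)) • red (Point.some _ _ h1)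
        + (l : ℤ) • red (Point.some _ _ h0) = 0 := by
  have hk2 : (2 : k) ≠ 0 := by simpa using natCast_ne_zero_of_lt l k hl 2 (by norm_num) (by norm_num)
  have hk3 : (3 : k) ≠ 0 := by simpa using natCast_ne_zero_of_lt l k hl 3 (by norm_num) (by norm_num)
  have hk5 : (5 : k) ≠ 0 := by simpa using natCast_ne_zero_of_lt l k hl 5 (by norm_num) (by norm_num)
  set ι : k[X] →+* RatFunc k := algebraMap k[X] (RatFunc k) with hι
  set Nτ : k := (par N₀ N₁).eval τ with hNτ_def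
  set Mτ : k := (par M₀ M₁).eval τ with hMτ_def
  set Wk : Affine k := (H94.E0 l (27 * A) (54 * B))⁄k with hWk
  have hW : IntegralCoeffs (H16.regularAt τ) W :=
    ⟨by rw [ha₁]; exact zero_mem _, by rw [ha₂]; exact zero_mem _, by rw [ha₃]; exact zero_mem _,
      by rw [ha₄]; exact H16.algebraMap_mem_regularAt τ _,
      by rw [ha₆]; exact H16.algebraMap_mem_regularAt τ _⟩
  have hev : ∀ {z : RatFunc k} (hz : z ∈ H16.regularAt τ) (p : k[X]), z = ι p →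
      H16.evalAt τ ⟨z, hz⟩ = p.eval τ := by
    intro z hz p h
    subst h
    exact H16.evalAt_algebraMap τ p
  -- the reduced curve
  have hWk₁ : Wk.a₁ = 0 := by simp [hWk, H94.E0]
  have hWk₂ : Wk.a₂ = 0 := by simp [hWk, H94.E0]
  have hWk₃ : Wk.a₃ = 0 := by simp [hWk, H94.E0]
  have hWk₄ : Wk.a₄ = 27 * H91.kH (pvx Nτ Mτ x₀ y₀) (pvy Nτ Mτ x₀ y₀) := by
    rw [hA]; simp [hWk, H94.E0, map_ofNat]
  have hWk₆ : Wk.a₆ = 54 * H91.kT (pvx Nτ Mτ x₀ y₀) (pvy Nτ Mτ x₀ y₀) := by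
    rw [hB]; simp [hWk, H94.E0, map_ofNat]
  have e₁ : H16.evalAt τ ⟨W.a₁, hW.a₁⟩ = Wk.a₁ := by
    rw [hev hW.a₁ 0 (by rw [ha₁, map_zero]), eval_zero, hWk₁]
  have e₂ : H16.evalAt τ ⟨W.a₂, hW.a₂⟩ = Wk.a₂ := by
    rw [hev hW.a₂ 0 (by rw [ha₂, map_zero]), eval_zero, hWk₂]
  have e₃ : H16.evalAt τ ⟨W.a₃, hW.a₃⟩ = Wk.a₃ := by
    rw [hev hW.a₃ 0 (by rw [ha₃, map_zero]), eval_zero, hWk₃]
  have e₄ : H16.evalAt τ ⟨W.a₄, hW.a₄⟩ = Wk.a₄ := by
    rw [hev hW.a₄ _ ha₄, hWk₄, eval_mul, ← coe_evalRingHom, map_ofNat, H91.map_kH,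
      coe_evalRingHom, secVx_eval, secVy_eval]
  have e₆ : H16.evalAt τ ⟨W.a₆, hW.a₆⟩ = Wk.a₆ := by
    rw [hev hW.a₆ _ ha₆, hWk₆, eval_mul, ← coe_evalRingHom, map_ofNat, H91.map_kT,
      coe_evalRingHom, secVx_eval, secVy_eval]
  have hl2 : (2 : ZMod l) ≠ 0 := by
    intro h
    apply hk2
    have := congrArg (algebraMap (ZMod l) k) h
    simpa [map_ofNat] using this
  have hl3 : (3 : ZMod l) ≠ 0 := by
    intro h
    apply hk3
    have := congrArg (algebraMap (ZMod l) k) h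
    simpa [map_ofNat] using this
  have hΔk : Wk.Δ ≠ 0 := by
    have hΔ0 : (H94.E0 l (27 * A) (54 * B)).Δ ≠ 0 := by
      rw [E0_Δ]
      have : -16 * (4 * (27 * A) ^ 3 + 27 * (54 * B) ^ 2) =
          -(2 ^ 6 * 3 ^ 9 * (A ^ 3 + B ^ 2)) := by ring
      rw [this]
      exact neg_ne_zero.mpr
        (mul_ne_zero (mul_ne_zero (pow_ne_zero 6 hl2) (pow_ne_zero 9 hl3)) hΔ)
    have : Wk.Δ = algebraMap (ZMod l) k ((H94.E0 l (27 * A) (54 * B)).Δ) := by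
      rw [hWk]
      exact WeierstrassCurve.map_Δ _ _
    rw [this]
    exact (_root_.map_ne_zero _).mpr hΔ0
  obtain ⟨red, hred, hsome⟩ := H61.exists_red_hom (H16.regularAt τ) (H16.evalAt τ)
    (H16.evalAt_eq_zero_iff τ) W hW Wk e₁ e₂ e₃ e₄ e₆ hΔk
  refine ⟨hW, red, hred, ?_⟩
  -- the explicit point on the fibre
  have hfk : H91.kf (pvx Nτ Mτ x₀ y₀) (pvy Nτ Mτ x₀ y₀) ≠ 0 := by
    refine H91.kf_ne_zero_of_invariants _ _ ?_ _ _ hA hB
    rw [← map_pow, ← map_pow, ← map_add]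
    exact (_root_.map_ne_zero _).mpr hΔ
  obtain ⟨hT, -⟩ := H91.klein_torsion_point Wk hk2 hk3 hk5 hWk₁ hWk₂ hWk₃ _ _ hWk₄ hWk₆ hfk
    r ρ hr hρ
  set ξ : k := H91.tX1 r (pvx Nτ Mτ x₀ y₀) (pvy Nτ Mτ x₀ y₀) with hξ
  set η : k := H91.tY1 r ρ (pvx Nτ Mτ x₀ y₀) (pvy Nτ Mτ x₀ y₀) with hη
  have hCH' := hCH k (Point.some ξ η hT)
  rw [H23.frobPt_some, H23.frobPt_some] at hCH'
  -- values of the reduction at the three sections
  have v0 : red (Point.some _ _ h0) = Point.some ξ η hT :=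
    red_some_of_eq red hsome h0 (H16.algebraMap_mem_regularAt τ _)
      (H16.algebraMap_mem_regularAt τ _)
      (by rw [H16.evalAt_algebraMap, secX_eval]) (by rw [H16.evalAt_algebraMap, secY_eval]) hT
  have v1 := red_some_of_eq red hsome h1 (H16.algebraMap_mem_regularAt τ _)
      (H16.algebraMap_mem_regularAt τ _)
      (ξ := ξ ^ l) (η := η ^ l)
      (by rw [H16.evalAt_algebraMap, secX_eval_twist _ _ _ _ (frobenius k l) τ r x₀ y₀ hNτ hMτ,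
        secX_eval, frobenius_def])
      (by rw [H16.evalAt_algebraMap, secY_eval_twist _ _ _ _ (frobenius k l) τ r ρ x₀ y₀ hNτ hMτ,
        secY_eval, frobenius_def])
      ((((H94.E0 l (27 * A) (54 * B)).baseChange_nonsingular
        (H23.frobAlg l k).injective ξ η).mpr hT))
  have hNτ2 : ((frobenius k l).comp (frobenius k l)) Nτ = Nτ := by
    rw [RingHom.comp_apply, hNτ, hNτ]
  have hMτ2 : ((frobenius k l).comp (frobenius k l)) Mτ = Mτ := by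
    rw [RingHom.comp_apply, hMτ, hMτ]
  have v2 := red_some_of_eq red hsome h2 (H16.algebraMap_mem_regularAt τ _)
      (H16.algebraMap_mem_regularAt τ _)
      (ξ := (ξ ^ l) ^ l) (η := (η ^ l) ^ l)
      (by
        rw [H16.evalAt_algebraMap]
        have := secX_eval_twist N₀ M₀ N₁ M₁ ((frobenius k l).comp (frobenius k l)) τ r x₀ y₀
          hNτ2 hMτ2
        simp only [RingHom.comp_apply] at this
        rw [this, secX_eval, frobenius_def, frobenius_def])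
      (by
        rw [H16.evalAt_algebraMap]
        have := secY_eval_twist N₀ M₀ N₁ M₁ ((frobenius k l).comp (frobenius k l)) τ r ρ x₀ y₀
          hNτ2 hMτ2
        simp only [RingHom.comp_apply] at this
        rw [this, secY_eval, frobenius_def, frobenius_def])
      ((((H94.E0 l (27 * A) (54 * B)).baseChange_nonsingular
        (H23.frobAlg l k).injective (ξ ^ l) (η ^ l)).mpr
        (((H94.E0 l (27 * A) (54 * B)).baseChange_nonsingular
          (H23.frobAlg l k).injective ξ η).mpr hT)))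
  rw [v0, v1, v2]
  exact hCH'

end Fibre

section Main

/-- **Theorem A' (Klein pencil).**  Let `ℓ ≥ 7` be a prime, `k ⊇ 𝔽_ℓ` algebraically closed,
`v₀ = (x₀, y₀) ∈ k²` a point whose Klein invariants lie in `𝔽_ℓ`, and `(n_j, m_j) ∈ 𝔽_ℓ²`
(`j = 0, 1`) two parameter points such that `u_j = n_j • v₀ + m_j • w(v₀)` has invariants
`(A_j, B_j) ∈ 𝔽_ℓ²` with `A_j³ + B_j² ≠ 0`.  Assume the family hypothesis over `k(t)` and the
Cayley–Hamilton relation for the two curves `E_j : y² = x³ + 27 A_j x + 54 B_j`.  Then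
`#E₁(𝔽_ℓ) ≡ #E₀(𝔽_ℓ) mod 5`. -/
theorem klein_pencil_congr (l : ℕ) [Fact l.Prime] (hl : 7 ≤ l)
    (k : Type) [Field k] [Algebra (ZMod l) k] [IsAlgClosed k]
    (hfam : FamilyHyp (RatFunc k)) (x₀ y₀ : k)
    (n₀ m₀ n₁ m₁ H₀ T₀ A₀ B₀ A₁ B₁ : ZMod l)
    (hH₀ : H91.kH x₀ y₀ = algebraMap (ZMod l) k H₀)
    (hT₀ : H91.kT x₀ y₀ = algebraMap (ZMod l) k T₀)
    (hA₀ : H91.kH (pvx (algebraMap (ZMod l) k n₀) (algebraMap (ZMod l) k m₀) x₀ y₀)
      (pvy (algebraMap (ZMod l) k n₀) (algebraMap (ZMod l) k m₀) x₀ y₀) = algebraMap (ZMod l) k A₀)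
    (hB₀ : H91.kT (pvx (algebraMap (ZMod l) k n₀) (algebraMap (ZMod l) k m₀) x₀ y₀)
      (pvy (algebraMap (ZMod l) k n₀) (algebraMap (ZMod l) k m₀) x₀ y₀) = algebraMap (ZMod l) k B₀)
    (hA₁ : H91.kH (pvx (algebraMap (ZMod l) k n₁) (algebraMap (ZMod l) k m₁) x₀ y₀)
      (pvy (algebraMap (ZMod l) k n₁) (algebraMap (ZMod l) k m₁) x₀ y₀) = algebraMap (ZMod l) k A₁)
    (hB₁ : H91.kT (pvx (algebraMap (ZMod l) k n₁) (algebraMap (ZMod l) k m₁) x₀ y₀)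
      (pvy (algebraMap (ZMod l) k n₁) (algebraMap (ZMod l) k m₁) x₀ y₀) = algebraMap (ZMod l) k B₁)
    (hΔ₀ : A₀ ^ 3 + B₀ ^ 2 ≠ 0) (hΔ₁ : A₁ ^ 3 + B₁ ^ 2 ≠ 0)
    (hCH₀ : H94.CHStatement l (27 * A₀) (54 * B₀))
    (hCH₁ : H94.CHStatement l (27 * A₁) (54 * B₁)) :
    (5 : ℤ) ∣ (Nat.card (H94.E0 l (27 * A₁) (54 * B₁)).Point : ℤ)
      - (Nat.card (H94.E0 l (27 * A₀) (54 * B₀)).Point : ℤ) := by
  classical
  have : CharP k l := charP_of_injective_algebraMap (algebraMap (ZMod l) k).injective l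
  have hk2 : (2 : k) ≠ 0 := by simpa using natCast_ne_zero_of_lt l k hl 2 (by norm_num) (by norm_num)
  have hk3 : (3 : k) ≠ 0 := by simpa using natCast_ne_zero_of_lt l k hl 3 (by norm_num) (by norm_num)
  have hk5 : (5 : k) ≠ 0 := by simpa using natCast_ne_zero_of_lt l k hl 5 (by norm_num) (by norm_num)
  obtain ⟨r, ρ, hr, hρ⟩ := H91.exists_tors_constants (K := k)
  have hφ : ∀ z : ZMod l, frobenius k l (algebraMap (ZMod l) k z) = algebraMap (ZMod l) k z := by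
    intro z
    rw [frobenius_def, ← map_pow, ZMod.pow_card]
  set N₀ : k := algebraMap (ZMod l) k n₀ with hN₀
  set M₀ : k := algebraMap (ZMod l) k m₀ with hM₀
  set N₁ : k := algebraMap (ZMod l) k n₁ with hN₁
  set M₁ : k := algebraMap (ZMod l) k m₁ with hM₁
  -- the generic curve
  let W : Affine (RatFunc k) := ⟨0, 0, 0,
    algebraMap k[X] (RatFunc k)
      (27 * H91.kH (secVx N₀ M₀ N₁ M₁ x₀ y₀) (secVy N₀ M₀ N₁ M₁ x₀ y₀)),
    algebraMap k[X] (RatFunc k)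
      (54 * H91.kT (secVx N₀ M₀ N₁ M₁ x₀ y₀) (secVy N₀ M₀ N₁ M₁ x₀ y₀))⟩
  have hf₀ : H91.kf (pvx N₀ M₀ x₀ y₀) (pvy N₀ M₀ x₀ y₀) ≠ 0 := by
    refine H91.kf_ne_zero_of_invariants _ _ ?_ _ _ hA₀ hB₀
    rw [← map_pow, ← map_pow, ← map_add]
    exact (_root_.map_ne_zero _).mpr hΔ₀
  -- the three sections
  obtain ⟨hs0, ht0⟩ := exists_section_point N₀ M₀ N₁ M₁ hk2 hk3 hk5 hfam x₀ y₀ hf₀ W rfl rfl rfl
    rfl rfl (RingHom.id k) rfl rfl rfl rfl r ρ hr hρ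
  obtain ⟨hs1, ht1⟩ := exists_section_point N₀ M₀ N₁ M₁ hk2 hk3 hk5 hfam x₀ y₀ hf₀ W rfl rfl rfl
    rfl rfl (frobenius k l) (hφ n₀) (hφ m₀) (by rw [hH₀, hφ]) (by rw [hT₀, hφ]) r ρ hr hρ
  obtain ⟨hs2, ht2⟩ := exists_section_point N₀ M₀ N₁ M₁ hk2 hk3 hk5 hfam x₀ y₀ hf₀ W rfl rfl rfl
    rfl rfl ((frobenius k l).comp (frobenius k l))
    (by rw [RingHom.comp_apply, hφ, hφ]) (by rw [RingHom.comp_apply, hφ, hφ])
    (by rw [RingHom.comp_apply, hH₀, hφ, hφ]) (by rw [RingHom.comp_apply, hT₀, hφ, hφ]) r ρ hr hρ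
  simp only [RingHom.id_apply] at hs0 ht0
  simp only [RingHom.comp_apply] at hs2 ht2
  -- the two fibres
  obtain ⟨hW₀, red₀, hker₀, rel₀⟩ := fibre_relation l k hl N₀ M₀ N₁ M₁ x₀ y₀ r ρ hr hρ W rfl rfl rfl
    rfl rfl 0 (by rw [par_eval_zero]; exact hφ n₀) (by rw [par_eval_zero]; exact hφ m₀) A₀ B₀
    (by rw [par_eval_zero, par_eval_zero]; exact hA₀)
    (by rw [par_eval_zero, par_eval_zero]; exact hB₀) hΔ₀ hCH₀ hs0 hs1 hs2
  obtain ⟨hW₁, red₁, hker₁, rel₁⟩ := fibre_relation l k hl N₀ M₀ N₁ M₁ x₀ y₀ r ρ hr hρ W rfl rfl rfl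
    rfl rfl 1 (by rw [par_eval_one]; exact hφ n₁) (by rw [par_eval_one]; exact hφ m₁) A₁ B₁
    (by rw [par_eval_one, par_eval_one]; exact hA₁)
    (by rw [par_eval_one, par_eval_one]; exact hB₁) hΔ₁ hCH₁ hs0 hs1 hs2
  have h5A₀ : ((5 : ℕ) : RatFunc k) ∉ (H16.regularAt (0 : k)).nonunits :=
    H16.natCast_not_mem_nonunits_regularAt 0 (by simpa using hk5)
  have h5A₁ : ((5 : ℕ) : RatFunc k) ∉ (H16.regularAt (1 : k)).nonunits :=
    H16.natCast_not_mem_nonunits_regularAt 1 (by simpa using hk5)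
  have key := dvd_sub_of_torsion_relations (p := 5) (by norm_num) (by norm_num) W
    (H16.regularAt (0 : k)) (H16.regularAt (1 : k)) hW₀ hW₁ h5A₀ h5A₁ red₀ hker₀ red₁ hker₁
    (Point.some _ _ hs0) (Point.some _ _ hs1) (Point.some _ _ hs2) (by simp) ht0 ht1 ht2
    _ _ (l : ℤ) rel₀ rel₁
  have e : ((l : ℤ) + 1 - (Nat.card (H94.E0 l (27 * A₁) (54 * B₁)).Point : ℤ))
      - ((l : ℤ) + 1 - (Nat.card (H94.E0 l (27 * A₀) (54 * B₀)).Point : ℤ))
      = -((Nat.card (H94.E0 l (27 * A₁) (54 * B₁)).Point : ℤ)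
        - (Nat.card (H94.E0 l (27 * A₀) (54 * B₀)).Point : ℤ)) := by ring
  have key' : ((5 : ℕ) : ℤ) ∣ -((Nat.card (H94.E0 l (27 * A₁) (54 * B₁)).Point : ℤ)
        - (Nat.card (H94.E0 l (27 * A₀) (54 * B₀)).Point : ℤ)) := by
    rw [← e]; exact key
  exact_mod_cast (dvd_neg.mp key')

end Main

end Fermat.Agent.S52.H69
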